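/-
S55 / layer G / block CM, leaf G-CM:SINDT (subtask 612)                         (helper139)

`sindTop_of : G.SIndepSpec → SIndTopSpec` — independence of `S` on `H²(G, -)`:
`y := π_* y'` for the morphism `π : C_{S'}(L) ⟶ C_S(L)` of `G.SIndepSpec`; `π_*` is injective on
`H²(G, -)` because it is bijective on `H²(⊤, -)` and restriction to `⊤` is bijective and natural
(`TOW.H323.resMap_top_bijective_h323`, `TOW.H323.resCoeffNat`).
Complete proofs, standard axioms only.
-/
import Fermat.Agent.S55.G.CM.Spec
import Fermat.Agent.S55.G.Rec.Tow.H323.AlgB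

set_option autoImplicit false

open CategoryTheory groupCohomology
open scoped NumberField

noncomputable section

namespace Fermat.Agent.S55.G.CM.H139

open Fermat.Agent.S55 Fermat.Agent.S55.G Fermat.Agent.S55.G.Rec

/-- Pure algebra: if `f_*` is bijective on `H²(⊤, -)`, then `f_*` is injective on `H²(Γ, -)`. -/
theorem h2Top_injective_of_top {Γ : Type} [Group Γ] {A B : Rep.{0} ℤ Γ} (f : A ⟶ B)
    (hf : Function.Bijective
      (T.coeffMap ((Rep.resFunctor (⊤ : Subgroup Γ).subtype).map f) 2).hom) :
    Function.Injective (TOW.h2Top f) := by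
  rw [injective_iff_map_eq_zero]
  intro x hx
  have hnat := TOW.H323.resCoeffNat Γ A B f ⊤ x
  rw [hx, map_zero] at hnat
  have h1 : TOW.res2 A ⊤ x = 0 := by
    apply hf.1
    rw [map_zero]
    exact hnat
  have h2 := (TOW.H323.resMap_top_bijective_h323 A 2).1
  apply h2
  rw [map_zero]
  exact h1

/-- **G-CM:SINDT.** -/
theorem sindTop_of (hS : G.SIndepSpec) : SIndTopSpec := by
  intro S S' hSS' Γ L _ _ _ _ _ _ hne hunr y'
  obtain ⟨Φ, π, -, -, -, -, -, -, hbij⟩ := hS S S' hSS' Γ L hne hunr
  have hinj := h2Top_injective_of_top π (hbij ⊤ 2 (by norm_num))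
  refine ⟨TOW.h2Top π y', fun n hn => ?_⟩
  apply hinj
  rw [map_nsmul, hn, map_zero]

/-- The assembly form of the Spec file. -/
theorem sindTopAssembly : SIndTopAssemblySpec := sindTop_of

end Fermat.Agent.S55.G.CM.H139

end
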